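import Fermat.Agent.BohrJessen.Zeta
import Fermat.Agent.Voronin.Main

/-!
# The limit law of `ζ (σ + it)`

The measure of Riesz, Markov and Kakutani for the means has mass `1` as the mean square is bounded.
For `1/2 < σ < 1` universality puts the values near a given `w` for a positive proportion of the
heights, so every open set has positive mass.
-/

set_option autoImplicit false

noncomputable section

namespace FA.BohrJessen

open Filter Complex MeasureTheory
open CompactlySupported
open scoped Topology ENNReal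

theorem lineMean_mono {σ : ℝ} {f g : ℂ → ℝ} (hf : Continuous f) (hg : Continuous g) {C : ℝ}
    (hfC : ∀ z, |f z| ≤ C) (hgC : ∀ z, |g z| ≤ C) (h : ∀ z, f z ≤ g z) {T : ℝ} (hT : 0 < T) :
    lineMean σ f T ≤ lineMean σ g T :=
  div_le_div_of_nonneg_right (intervalIntegral.integral_mono_on hT.le
    (intervalIntegrable_comp_zline σ hf hfC 0 T) (intervalIntegrable_comp_zline σ hg hgC 0 T)
    fun _ _ => h _) hT.le

theorem exists_bound (f : C_c(ℂ, ℝ)) : ∃ C, ∀ z, |f z| ≤ C :=
  f.hasCompactSupport.exists_bound_of_continuous (map_continuous f)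

theorem lineLimit_add {σ : ℝ} (hσ : 1 / 2 < σ) (f g : C_c(ℂ, ℝ)) :
    lineLimit σ ⇑(f + g) = lineLimit σ f + lineLimit σ g := by
  obtain ⟨C, hC⟩ := exists_bound f
  obtain ⟨D, hD⟩ := exists_bound g
  refine tendsto_nhds_unique (tendsto_lineMean_compact hσ (f + g))
    (((tendsto_lineMean_compact hσ f).add (tendsto_lineMean_compact hσ g)).congr fun T => ?_)
  simp only [lineMean, ← add_div]
  rw [← intervalIntegral.integral_add (intervalIntegrable_comp_zline σ (map_continuous f) hC 0 T)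
    (intervalIntegrable_comp_zline σ (map_continuous g) hD 0 T)]
  rfl

theorem lineLimit_smul {σ : ℝ} (hσ : 1 / 2 < σ) (a : ℝ) (f : C_c(ℂ, ℝ)) :
    lineLimit σ ⇑(a • f) = a * lineLimit σ f := by
  refine tendsto_nhds_unique (tendsto_lineMean_compact hσ (a • f))
    (((tendsto_lineMean_compact hσ f).const_mul a).congr fun T => ?_)
  simp only [lineMean, mul_div_assoc', ← intervalIntegral.integral_const_mul]
  rfl

theorem lineLimit_nonneg {σ : ℝ} (hσ : 1 / 2 < σ) (f : C_c(ℂ, ℝ)) (hf : ∀ z, 0 ≤ f z) :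
    0 ≤ lineLimit σ f :=
  ge_of_tendsto (tendsto_lineMean_compact hσ f) ((eventually_gt_atTop (0 : ℝ)).mono fun _ hT =>
    div_nonneg (intervalIntegral.integral_nonneg hT.le fun _ _ => hf _) hT.le)

theorem lineLimit_le_one {σ : ℝ} (hσ : 1 / 2 < σ) (f : C_c(ℂ, ℝ)) (hf0 : ∀ z, 0 ≤ f z)
    (hf : ∀ z, f z ≤ 1) : lineLimit σ f ≤ 1 := by
  refine le_of_tendsto (tendsto_lineMean_compact hσ f)
    ((eventually_gt_atTop (0 : ℝ)).mono fun T hT => ?_)
  refine (lineMean_mono (map_continuous f) continuous_const (C := 1) (fun z => abs_le.2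
    ⟨by linarith [hf0 z], hf z⟩) (fun _ => (abs_one (α := ℝ)).le) hf hT).trans (le_of_eq ?_)
  simp [lineMean, hT.ne']

/-- The means as a positive functional. -/
def lineFunctional {σ : ℝ} (hσ : 1 / 2 < σ) : C_c(ℂ, ℝ) →ₚ[ℝ] ℝ :=
  PositiveLinearMap.mk₀
    { toFun := fun f => lineLimit σ f
      map_add' := lineLimit_add hσ
      map_smul' := fun a f => lineLimit_smul hσ a f }
    fun f hf => lineLimit_nonneg hσ f fun z => hf z

/-- The limit law. -/
def lineLaw {σ : ℝ} (hσ : 1 / 2 < σ) : Measure ℂ := RealRMK.rieszMeasure (lineFunctional hσ)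

theorem lineLaw_univ_le {σ : ℝ} (hσ : 1 / 2 < σ) : lineLaw hσ Set.univ ≤ 1 := by
  rw [← Metric.iUnion_closedBall_nat (0 : ℂ), (Monotone.measure_iUnion
    fun a b h => Metric.closedBall_subset_closedBall (Nat.cast_le.2 h))]
  refine iSup_le fun n => ?_
  refine (RealRMK.rieszMeasure_le_of_eq_one _ (f := cutoff n) (cutoff_nonneg n)
    (isCompact_closedBall 0 _) fun z hz => cutoff_eq_one (by simpa using hz)).trans ?_
  exact ENNReal.ofReal_le_one.2
    (lineLimit_le_one hσ _ (cutoff_nonneg n) (cutoff_le_one n))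

theorem isFiniteMeasure_lineLaw {σ : ℝ} (hσ : 1 / 2 < σ) : IsFiniteMeasure (lineLaw hσ) :=
  ⟨(lineLaw_univ_le hσ).trans_lt ENNReal.one_lt_top⟩

theorem integral_lineLaw {σ : ℝ} (hσ : 1 / 2 < σ) (f : C_c(ℂ, ℝ)) :
    ∫ z, f z ∂lineLaw hσ = lineLimit σ f :=
  RealRMK.integral_rieszMeasure (lineFunctional hσ) f

theorem integrable_of_abs_le {μ : Measure ℂ} [IsFiniteMeasure μ] {φ : ℂ → ℝ} (hφ : Continuous φ)
    {C : ℝ} (hC : ∀ z, |φ z| ≤ C) : Integrable φ μ :=
  Integrable.mono' (integrable_const C) hφ.aestronglyMeasurable (Eventually.of_forall hC)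

theorem lineLaw_probability {σ : ℝ} (hσ : 1 / 2 < σ) : IsProbabilityMeasure (lineLaw hσ) := by
  have := isFiniteMeasure_lineLaw hσ
  obtain ⟨M, hM0, hM⟩ := exists_meanSq_bound hσ
  refine ⟨le_antisymm (lineLaw_univ_le hσ) ?_⟩
  rw [← ENNReal.ofReal_one, ← ofReal_measureReal]
  refine ENNReal.ofReal_le_ofReal (le_of_forall_pos_le_add fun ε hε => ?_)
  obtain ⟨R, hR, hR1⟩ : ∃ R : ℝ, 0 < R ∧ 1 / R ^ 2 * M ≤ ε / 2 := by
    refine ⟨2 * M / ε + 1, by positivity, ?_⟩
    obtain ⟨X, hX⟩ : ∃ X, X = 2 * M / ε := ⟨_, rfl⟩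
    have hX0 : 0 ≤ X := hX ▸ by positivity
    have hXe : X * ε = 2 * M := hX ▸ div_mul_cancel₀ _ hε.ne'
    rw [← hX, div_mul_eq_mul_div, div_le_iff₀ (by positivity)]
    nlinarith [mul_nonneg hε.le (sq_nonneg X), mul_nonneg hε.le hX0]
  have hlow : 1 - ε ≤ lineLimit σ (cutoff R) := by
    refine ge_of_tendsto (tendsto_lineMean_compact hσ (cutoff R)) ?_
    filter_upwards [eventually_cutTest_le (φ := fun _ => 1) continuous_const (C := 1)
      (fun _ => (abs_one (α := ℝ)).le) hM hR (half_pos hε), eventually_gt_atTop (0 : ℝ)]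
      with T hT hT0
    have hi := intervalIntegrable_comp_zline σ (map_continuous (cutoff R)) (C := 1)
      (fun z => abs_le.2 ⟨by linarith [cutoff_nonneg R z], cutoff_le_one R z⟩) 0 T
    rw [intervalIntegral.integral_congr (g := fun t => 1 - cutoff R (zline σ t)) fun t _ => by
        show |1 - 1 * cutoff R (zline σ t)| = _
        rw [one_mul, abs_of_nonneg (sub_nonneg.2 (cutoff_le_one R _))],
      intervalIntegral.integral_sub intervalIntegrable_const hi, intervalIntegral.integral_const,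
      smul_eq_mul, mul_one, sub_zero, sub_div, div_self hT0.ne'] at hT
    rw [lineMean]
    linarith
  have hup : lineLimit σ (cutoff R) ≤ (lineLaw hσ).real Set.univ := by
    rw [← integral_lineLaw hσ]
    refine (integral_mono ((map_continuous (cutoff R)).integrable_of_hasCompactSupport
      (cutoff R).hasCompactSupport) (integrable_const 1) (cutoff_le_one R)).trans (le_of_eq ?_)
    simp
  linarith

/-- **The mean of a bounded continuous function is its integral.** -/
theorem tendsto_lineMean_law {σ : ℝ} (hσ : 1 / 2 < σ) {φ : ℂ → ℝ} (hφ : Continuous φ) {C : ℝ}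
    (hC : ∀ z, |φ z| ≤ C) :
    Tendsto (lineMean σ φ) atTop (𝓝 (∫ z, φ z ∂lineLaw hσ)) := by
  have := lineLaw_probability hσ
  have hC0 : 0 ≤ C := (abs_nonneg _).trans (hC 0)
  obtain ⟨M, hM0, hM⟩ := exists_meanSq_bound hσ
  obtain ⟨L, hL⟩ : ∃ L, L = lineLimit σ φ := ⟨_, rfl⟩
  have hlim : Tendsto (lineMean σ φ) atTop (𝓝 L) :=
    hL ▸ tendsto_lineMean (hasMean_bounded hσ hφ hC)
  suffices L = ∫ z, φ z ∂lineLaw hσ by rwa [← this]
  have h1 : Tendsto (fun n : ℕ => lineLimit σ (cutTest (n + 1 : ℝ) hφ)) atTop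
      (𝓝 (∫ z, φ z ∂lineLaw hσ)) := by
    simp only [← integral_lineLaw hσ]
    refine tendsto_integral_of_dominated_convergence (fun _ => C)
      (fun n => (map_continuous (cutTest _ hφ)).aestronglyMeasurable) (integrable_const C)
      (fun n => Eventually.of_forall fun z => ?_) (Eventually.of_forall fun z => ?_)
    · show ‖φ z * cutoff _ z‖ ≤ C
      rw [norm_mul, Real.norm_eq_abs, Real.norm_eq_abs, abs_of_nonneg (cutoff_nonneg _ z)]
      exact (mul_le_of_le_one_right (abs_nonneg _) (cutoff_le_one _ z)).trans (hC z)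
    · refine tendsto_const_nhds.congr' ((eventually_ge_atTop ⌈‖z‖⌉₊).mono fun n hn => ?_)
      show φ z = φ z * cutoff _ z
      rw [cutoff_eq_one ((Nat.le_ceil _).trans ((Nat.cast_le.2 hn).trans (by linarith))), mul_one]
  refine tendsto_nhds_unique (l := atTop) (f := fun n : ℕ => lineLimit σ (cutTest (n + 1 : ℝ) hφ))
    ?_ h1
  refine tendsto_iff_norm_sub_tendsto_zero.2 (squeeze_zero (fun n => norm_nonneg _)
    (g := fun n : ℕ => C * M / ((n : ℝ) + 1) ^ 2) (fun n => ?_) ?_)
  · refine le_of_forall_pos_le_add fun δ hδ => ?_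
    refine le_of_tendsto (((tendsto_lineMean_compact hσ _).sub hlim).norm) ?_
    filter_upwards [eventually_cutTest_le hφ hC hM (show (0 : ℝ) < n + 1 by positivity) hδ,
      eventually_gt_atTop (0 : ℝ)] with T hT hT0
    rw [lineMean, lineMean, ← sub_div, ← intervalIntegral.integral_sub
      (intervalIntegrable_comp_zline σ (map_continuous (cutTest _ hφ)) (C := C) (fun z => by
        show |φ z * cutoff _ z| ≤ C
        rw [abs_mul, abs_of_nonneg (cutoff_nonneg _ z)]
        exact (mul_le_of_le_one_right (abs_nonneg _) (cutoff_le_one _ z)).trans (hC z)) 0 T)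
      (intervalIntegrable_comp_zline σ hφ hC 0 T), Real.norm_eq_abs, abs_div, abs_of_pos hT0,
      div_mul_eq_mul_div] at *
    refine le_trans (div_le_div_of_nonneg_right
      (intervalIntegral.abs_integral_le_integral_abs hT0.le) hT0.le) ?_
    simp only [abs_sub_comm (cutTest _ hφ _)]
    exact hT
  · exact tendsto_const_nhds.div_atTop ((tendsto_pow_atTop two_ne_zero).comp
      (tendsto_atTop_add_const_right _ _ tendsto_natCast_atTop_atTop))

/-- **Every open set has positive mass** for `1/2 < σ < 1`. -/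
theorem lineLaw_ball_pos {σ : ℝ} (hσ : 1 / 2 < σ) (hσ1 : σ < 1) (w : ℂ) {ε : ℝ} (hε : 0 < ε) :
    0 < lineLaw hσ (Metric.ball w ε) := by
  have := lineLaw_probability hσ
  obtain ⟨v, hv0, hv⟩ : ∃ v : ℂ, v ≠ 0 ∧ ‖v - w‖ < ε / 4 := by
    rcases eq_or_ne w 0 with rfl | hw
    · refine ⟨((ε / 8 : ℝ) : ℂ), ofReal_ne_zero.2 (by linarith), ?_⟩
      rw [sub_zero, Complex.norm_real, Real.norm_of_nonneg (by linarith)]
      linarith
    · exact ⟨w, hw, by rw [sub_self, norm_zero]; linarith⟩
  have hs : |σ - 3 / 4| < 1 / 4 := by rw [abs_lt]; constructor <;> linarith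
  obtain ⟨r, hr1, hr4⟩ := exists_between hs
  obtain ⟨c, hc, hev⟩ := FA.Voronin.exists_zeta_universal_density
    ((abs_nonneg _).trans_lt hr1) hr4 (f := fun _ => v) continuousOn_const
    (differentiableOn_const _) (fun _ _ => hv0) (show 0 < ε / 4 by linarith) 0
  -- a test function in the ball
  obtain ⟨g, hg⟩ : ∃ g : ℂ → ℝ, g = fun z => max 0 (min 1 (2 - 4 * ‖z - v‖ / ε)) := ⟨_, rfl⟩
  have hgc : Continuous g := hg ▸ by fun_prop
  have hg01 : ∀ z, 0 ≤ g z ∧ g z ≤ 1 := fun z =>
    hg ▸ ⟨le_max_left _ _, max_le zero_le_one (min_le_left _ _)⟩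
  have hgC : ∀ z, |g z| ≤ 1 := fun z => abs_le.2 ⟨by linarith [hg01 z], (hg01 z).2⟩
  have hlow : c ≤ ∫ z, g z ∂lineLaw hσ := by
    refine ge_of_tendsto (tendsto_lineMean_law hσ hgc hgC) ?_
    filter_upwards [hev, eventually_gt_atTop (0 : ℝ)] with T hT hT0
    rw [lineMean, le_div_iff₀ hT0]
    obtain ⟨A, hA⟩ : ∃ A : Set ℝ, A = {t | ‖zline σ t - v‖ < ε / 4} := ⟨_, rfl⟩
    have hAm : MeasurableSet A := hA ▸ measurableSet_lt
      ((measurable_zline σ).sub_const v).norm measurable_const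
    refine hT.trans ((measureReal_mono (s₂ := A ∩ Set.Icc 0 T) ?_ ?_).trans ?_)
    · rintro t ⟨ht, htu⟩
      refine ⟨?_, ht⟩
      rw [hA]
      have h := htu ((σ - 3 / 4 : ℝ) : ℂ) (by
        rw [Complex.norm_real, Real.norm_eq_abs]; exact hr1.le)
      rwa [show ((σ - 3 / 4 : ℝ) : ℂ) + 3 / 4 = σ by push_cast; ring] at h
    · exact ((measure_mono Set.inter_subset_right).trans_lt measure_Icc_lt_top).ne
    rw [intervalIntegral.integral_of_le hT0.le, ← integral_Icc_eq_integral_Ioc]
    have e : ∫ _t in Set.Icc 0 T ∩ A, (1 : ℝ) = volume.real (A ∩ Set.Icc 0 T) := by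
      rw [setIntegral_const, smul_eq_mul, mul_one, Set.inter_comm]
    rw [← e, ← setIntegral_indicator hAm]
    refine setIntegral_mono_on ((integrableOn_const (by simp)).indicator hAm)
      ((intervalIntegrable_iff_integrableOn_Icc_of_le hT0.le).1
        (intervalIntegrable_comp_zline σ hgc hgC 0 T)) measurableSet_Icc fun t _ => ?_
    by_cases ht : t ∈ A
    · rw [Set.indicator_of_mem ht]
      rw [hA] at ht
      rw [hg]
      refine le_max_of_le_right (le_min le_rfl ?_)
      rw [le_sub_comm, div_le_iff₀ hε]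
      linarith [show ‖zline σ t - v‖ < ε / 4 from ht]
    · rw [Set.indicator_of_notMem ht]
      exact (hg01 _).1
  have hup : ∫ z, g z ∂lineLaw hσ ≤ (lineLaw hσ).real (Metric.ball w ε) := by
    refine (integral_mono (integrable_of_abs_le hgc hgC)
      ((integrable_const (1 : ℝ)).indicator (measurableSet_ball (x := w) (ε := ε)))
      fun z => ?_).trans (le_of_eq ?_)
    · by_cases hz : z ∈ Metric.ball w ε
      · rw [Set.indicator_of_mem hz]
        exact (hg01 z).2
      · rw [Set.indicator_of_notMem hz, hg]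
        refine (max_eq_left ((min_le_right _ _).trans ?_)).le
        rw [Metric.mem_ball, dist_eq_norm, not_lt] at hz
        rw [sub_nonpos, le_div_iff₀ hε]
        linarith [norm_sub_le_norm_sub_add_norm_sub z v w]
    · rw [integral_indicator measurableSet_ball, setIntegral_const, smul_eq_mul, mul_one]
  refine pos_iff_ne_zero.2 fun h => ?_
  rw [measureReal_def, h] at hup
  simp at hup
  linarith

end FA.BohrJessen
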