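import Mathlib.Analysis.SpecialFunctions.Integrals.Basic
import Mathlib.MeasureTheory.Integral.IntervalIntegral.IntegrationByParts
import Mathlib.Topology.ContinuousMap.StoneWeierstrass

/-!
# Functions with a mean value

The mean `lim (1/T) ∫_0^T f` exists for exponential sums and passes to functions that they
approximate in mean; by Stone and Weierstrass it exists for `φ (D t)` for every continuous `φ` and
every exponential sum `D`.
-/

set_option autoImplicit false

noncomputable section

namespace FA.BohrJessen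

open Filter Complex MeasureTheory
open scoped Topology

/-- `(1/T) ∫_0^T f`. -/
def meanTo (f : ℝ → ℂ) (T : ℝ) : ℂ := (∫ t in (0 : ℝ)..T, f t) / T

/-- The mean value exists. -/
def HasMean (f : ℝ → ℂ) : Prop := ∃ L, Tendsto (meanTo f) atTop (𝓝 L)

/-- The exponential sums. -/
def expSpan : Submodule ℂ (ℝ → ℂ) :=
  Submodule.span ℂ (Set.range fun l : ℝ => fun t : ℝ => cexp (l * t * I))

theorem continuous_of_mem_expSpan {g : ℝ → ℂ} (hg : g ∈ expSpan) : Continuous g := by
  induction hg using Submodule.span_induction with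
  | mem x hx =>
    obtain ⟨l, rfl⟩ := hx
    fun_prop
  | zero => exact continuous_const
  | add x y _ _ hx hy => exact hx.add hy
  | smul a x _ hx => exact hx.const_smul a

theorem const_mem_expSpan (c : ℂ) : (fun _ : ℝ => c) ∈ expSpan := by
  have h : (fun t : ℝ => cexp ((0 : ℝ) * t * I)) ∈ expSpan := Submodule.subset_span ⟨0, rfl⟩
  convert expSpan.smul_mem c h using 1
  funext t
  simp

theorem mul_mem_expSpan {f g : ℝ → ℂ} (hf : f ∈ expSpan) (hg : g ∈ expSpan) :
    f * g ∈ expSpan := by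
  induction hf using Submodule.span_induction with
  | mem x hx =>
    induction hg using Submodule.span_induction with
    | mem y hy =>
      obtain ⟨l, rfl⟩ := hx
      obtain ⟨m, rfl⟩ := hy
      refine Submodule.subset_span ⟨l + m, ?_⟩
      funext t
      rw [Pi.mul_apply, ← Complex.exp_add]
      push_cast
      ring_nf
    | zero => simp
    | add u v _ _ hu hv => rw [mul_add]; exact add_mem hu hv
    | smul a u _ hu => rw [mul_smul_comm]; exact expSpan.smul_mem a hu
  | zero => simp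
  | add u v _ _ hu hv => rw [add_mul]; exact add_mem hu hv
  | smul a u _ hu => rw [smul_mul_assoc]; exact expSpan.smul_mem a hu

theorem star_mem_expSpan {g : ℝ → ℂ} (hg : g ∈ expSpan) : star g ∈ expSpan := by
  induction hg using Submodule.span_induction with
  | mem x hx =>
    obtain ⟨l, rfl⟩ := hx
    refine Submodule.subset_span ⟨-l, ?_⟩
    funext t
    simp [← Complex.exp_conj]
  | zero => simp
  | add x y _ _ hx hy => rw [star_add]; exact add_mem hx hy
  | smul a x _ hx => rw [star_smul]; exact expSpan.smul_mem _ hx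

theorem hasMean_of_mem_expSpan {g : ℝ → ℂ} (hg : g ∈ expSpan) : HasMean g := by
  induction hg using Submodule.span_induction with
  | mem x hx =>
    obtain ⟨l, rfl⟩ := hx
    rcases eq_or_ne l 0 with rfl | hl
    · refine ⟨1, tendsto_const_nhds.congr' ((eventually_ne_atTop (0 : ℝ)).mono fun T hT => ?_)⟩
      simp [meanTo, Complex.ofReal_ne_zero.2 hT]
    · refine ⟨0, squeeze_zero_norm' ((eventually_gt_atTop (0 : ℝ)).mono fun T hT => ?_)
        (tendsto_const_nhds.div_atTop tendsto_id : Tendsto (fun T : ℝ => (2 / |l|) / T) _ _)⟩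
      rw [meanTo, norm_div, Complex.norm_real, Real.norm_of_nonneg hT.le]
      refine div_le_div_of_nonneg_right ?_ hT.le
      have hne : (l : ℂ) * I ≠ 0 := mul_ne_zero (Complex.ofReal_ne_zero.2 hl) Complex.I_ne_zero
      rw [intervalIntegral.integral_congr (g := fun t : ℝ => cexp ((l : ℂ) * I * t))
        fun t _ => by ring_nf, integral_exp_mul_complex hne, norm_div, norm_mul, Complex.norm_I,
        mul_one, Complex.norm_real, Real.norm_eq_abs]
      refine div_le_div_of_nonneg_right ((norm_sub_le _ _).trans ?_) (abs_nonneg l)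
      norm_num [Complex.norm_exp]
  | zero => exact ⟨0, tendsto_const_nhds.congr fun T => by simp [meanTo]⟩
  | add x y hx hy hx' hy' =>
    obtain ⟨L, hL⟩ := hx'
    obtain ⟨M, hM⟩ := hy'
    refine ⟨L + M, (hL.add hM).congr fun T => ?_⟩
    simp only [meanTo, Pi.add_apply, ← add_div]
    rw [intervalIntegral.integral_add ((continuous_of_mem_expSpan hx).intervalIntegrable _ _)
      ((continuous_of_mem_expSpan hy).intervalIntegrable _ _)]
  | smul a x _ hx =>
    obtain ⟨L, hL⟩ := hx
    refine ⟨a * L, (hL.const_mul a).congr fun T => ?_⟩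
    simp only [meanTo, Pi.smul_apply, smul_eq_mul]
    rw [intervalIntegral.integral_const_mul, mul_div_assoc]

theorem norm_meanTo_sub_le {f g : ℝ → ℂ} (hf : ∀ T, IntervalIntegrable f volume 0 T)
    (hg : ∀ T, IntervalIntegrable g volume 0 T) {T : ℝ} (hT : 0 < T) :
    ‖meanTo f T - meanTo g T‖ ≤ (∫ t in (0 : ℝ)..T, ‖f t - g t‖) / T := by
  rw [meanTo, meanTo, ← sub_div, ← intervalIntegral.integral_sub (hf T) (hg T), norm_div,
    Complex.norm_real, Real.norm_of_nonneg hT.le]
  exact div_le_div_of_nonneg_right (intervalIntegral.norm_integral_le_integral_norm hT.le) hT.le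

/-- **The mean passes to the limit.** -/
theorem hasMean_of_approx {f : ℝ → ℂ} (hf : ∀ T, IntervalIntegrable f volume 0 T)
    (h : ∀ ε : ℝ, 0 < ε → ∃ g : ℝ → ℂ, HasMean g ∧ (∀ T, IntervalIntegrable g volume 0 T) ∧
      ∀ᶠ T : ℝ in atTop, (∫ t in (0 : ℝ)..T, ‖f t - g t‖) / T ≤ ε) : HasMean f := by
  refine cauchy_map_iff_exists_tendsto.1 (Metric.cauchy_iff.2 ⟨inferInstance, fun ε hε => ?_⟩)
  obtain ⟨g, ⟨L, hL⟩, hgi, hgT⟩ := h (ε / 4) (by linarith)
  have hev : ∀ᶠ T in atTop, meanTo f T ∈ Metric.ball L (ε / 2) := by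
    filter_upwards [hgT, Metric.tendsto_nhds.1 hL (ε / 4) (by linarith),
      eventually_gt_atTop (0 : ℝ)] with T h1 h2 h3
    rw [dist_eq_norm] at h2
    rw [Metric.mem_ball, dist_eq_norm]
    linarith [norm_meanTo_sub_le hf hgi h3,
      norm_sub_le_norm_sub_add_norm_sub (meanTo f T) (meanTo g T) L]
  refine ⟨Metric.ball L (ε / 2), hev, fun x hx y hy => ?_⟩
  rw [Metric.mem_ball] at hx hy
  linarith [dist_triangle_right x y L]

/-- **`φ (D t)` has a mean for continuous `φ` and an exponential sum `D`.** -/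
theorem hasMean_comp_expSum {φ : ℂ → ℂ} (hφ : Continuous φ) {D : ℝ → ℂ} (hD : D ∈ expSpan)
    {R : ℝ} (hR : ∀ t, ‖D t‖ ≤ R) : HasMean fun t => φ (D t) := by
  obtain ⟨s, hs⟩ : ∃ s : Set ℂ, s = Metric.closedBall 0 R := ⟨_, rfl⟩
  have : CompactSpace s := isCompact_iff_compactSpace.1 (hs ▸ isCompact_closedBall 0 R)
  have hmem : ∀ t, D t ∈ s := fun t => hs ▸ by simpa using hR t
  have key : ∀ F : C(s, ℂ), ∀ ε : ℝ, 0 < ε → ∃ g ∈ expSpan,
      ∀ t, ‖F ⟨D t, hmem t⟩ - g t‖ ≤ ε := by
    intro F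
    induction F using ContinuousMap.induction_on_of_compact with
    | const r => exact fun ε hε => ⟨_, const_mem_expSpan r, fun t => by simp [hε.le]⟩
    | id => exact fun ε hε => ⟨D, hD, fun t => by simp [hε.le]⟩
    | star_id => exact fun ε hε => ⟨star D, star_mem_expSpan hD, fun t => by simp [hε.le]⟩
    | add F G hF hG =>
      intro ε hε
      obtain ⟨a, ha, ha'⟩ := hF (ε / 2) (half_pos hε)
      obtain ⟨b, hb, hb'⟩ := hG (ε / 2) (half_pos hε)
      refine ⟨a + b, add_mem ha hb, fun t => ?_⟩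
      rw [ContinuousMap.add_apply, Pi.add_apply, add_sub_add_comm]
      linarith [norm_add_le (F ⟨D t, hmem t⟩ - a t) (G ⟨D t, hmem t⟩ - b t), ha' t, hb' t]
    | mul F G hF hG =>
      intro ε hε
      obtain ⟨a, ha, ha'⟩ := hF (ε / (2 * (‖G‖ + 1))) (by positivity)
      obtain ⟨b, hb, hb'⟩ := hG (min 1 (ε / (2 * (‖F‖ + ε / 2 + 1)))) (lt_min one_pos
        (by positivity))
      refine ⟨a * b, mul_mem_expSpan ha hb, fun t => ?_⟩
      obtain ⟨x, hx⟩ : ∃ x, x = F ⟨D t, hmem t⟩ := ⟨_, rfl⟩
      obtain ⟨y, hy⟩ : ∃ y, y = G ⟨D t, hmem t⟩ := ⟨_, rfl⟩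
      have hyn : ‖y‖ ≤ ‖G‖ := hy ▸ G.norm_coe_le_norm _
      have hxn : ‖x‖ ≤ ‖F‖ := hx ▸ F.norm_coe_le_norm _
      have h1 := ha' t
      have h2 := (hb' t).trans (min_le_right _ _)
      rw [← hx] at h1
      rw [← hy] at h2
      have hsmall : ε / (2 * (‖G‖ + 1)) ≤ ε / 2 := by
        refine div_le_div_of_nonneg_left hε.le two_pos ?_
        nlinarith [norm_nonneg G]
      have han : ‖a t‖ ≤ ‖F‖ + ε / 2 := by
        linarith [norm_le_norm_add_norm_sub x (a t)]
      rw [ContinuousMap.mul_apply, Pi.mul_apply, ← hx, ← hy,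
        show x * y - a t * b t = (x - a t) * y + a t * (y - b t) by ring]
      refine (norm_add_le _ _).trans ?_
      rw [norm_mul, norm_mul]
      have e1 : ε / (2 * (‖G‖ + 1)) * ‖G‖ ≤ ε / 2 := by
        rw [div_mul_eq_mul_div, div_le_div_iff₀ (by positivity) two_pos]
        nlinarith [norm_nonneg G]
      have e2 : (‖F‖ + ε / 2) * (ε / (2 * (‖F‖ + ε / 2 + 1))) ≤ ε / 2 := by
        rw [mul_div_assoc', div_le_div_iff₀ (by positivity) two_pos]
        nlinarith [norm_nonneg F]
      linarith [mul_le_mul h1 hyn (norm_nonneg y) (by positivity),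
        mul_le_mul han h2 (norm_nonneg _) (by positivity)]
    | frequently F hF =>
      intro ε hε
      obtain ⟨G, hG, hd⟩ := (hF.and_eventually (Metric.ball_mem_nhds F (half_pos hε))).exists
      obtain ⟨g, hg, hg'⟩ := hG (ε / 2) (half_pos hε)
      refine ⟨g, hg, fun t => ?_⟩
      have h1 := (ContinuousMap.dist_apply_le_dist ⟨D t, hmem t⟩).trans
        (le_of_lt (Metric.mem_ball.1 hd))
      rw [dist_eq_norm, norm_sub_rev] at h1
      linarith [hg' t, norm_sub_le_norm_sub_add_norm_sub (F ⟨D t, hmem t⟩) (G ⟨D t, hmem t⟩) (g t)]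
  have hDc := continuous_of_mem_expSpan hD
  refine hasMean_of_approx (fun T => (hφ.comp hDc).intervalIntegrable _ _) fun ε hε => ?_
  obtain ⟨g, hg, hgb⟩ := key ((⟨φ, hφ⟩ : C(ℂ, ℂ)).restrict s) ε hε
  refine ⟨g, hasMean_of_mem_expSpan hg,
    fun T => (continuous_of_mem_expSpan hg).intervalIntegrable _ _,
    (eventually_gt_atTop (0 : ℝ)).mono fun T hT => ?_⟩
  rw [div_le_iff₀ hT]
  refine (intervalIntegral.integral_mono_on hT.le
    (((hφ.comp hDc).sub (continuous_of_mem_expSpan hg)).norm.intervalIntegrable _ _)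
    intervalIntegrable_const fun t _ => hgb t).trans (le_of_eq ?_)
  simp [mul_comm]

end FA.BohrJessen
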