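import Fermat.Agent.BohrJessen.Means
import Fermat.Agent.BohrCourant.MeanSquare
import Mathlib.MeasureTheory.Integral.RieszMarkovKakutani.Real

/-!
# The mean values of `φ (ζ (σ + it))`

For `σ > 1/2` the line is approximated in mean square by exponential sums, so the mean exists for
test functions with compact support, and, as the mean square of `ζ` is bounded, for all bounded
continuous `φ`. By Riesz, Markov and Kakutani the means are the integrals for a probability
measure.
-/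

set_option autoImplicit false

noncomputable section

namespace FA.BohrJessen

open Finset Filter Complex MeasureTheory
open FA.BohrCourant (lineSum lineCoeff dmono tailSum)
open CompactlySupported
open scoped Topology

/-- `ζ (σ + it)`. -/
def zline (σ t : ℝ) : ℂ := riemannZeta (σ + t * I)

theorem measurable_zline (σ : ℝ) : Measurable (zline σ) := by
  refine measurable_of_continuousOn_compl_singleton 0 fun t ht => ?_
  have h : (σ : ℂ) + t * I ≠ 1 := fun h => ht (by simpa using congrArg Complex.im h)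
  exact ((differentiableAt_riemannZeta h).continuousAt.comp
    (f := fun t : ℝ => (σ : ℂ) + t * I) (by fun_prop)).continuousWithinAt

theorem intervalIntegrable_sq_zline (σ : ℝ) {T : ℝ} (hT : 2 ≤ T) :
    IntervalIntegrable (fun t => ‖zline σ t‖ ^ 2) volume 2 T :=
  ((FA.BohrCourant.continuousOn_zeta_line σ hT).norm.pow 2).intervalIntegrable

/-- The exponential sum of length `y`. -/
def lineApprox (σ : ℝ) (y : ℕ) : ℝ → ℂ := lineSum σ (Icc 1 y)

theorem continuous_lineApprox (σ : ℝ) (y : ℕ) : Continuous (lineApprox σ y) :=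
  FA.BohrCourant.continuous_lineSum fun _ hn => (mem_Icc.1 hn).1

theorem lineApprox_mem_expSpan (σ : ℝ) (y : ℕ) : lineApprox σ y ∈ expSpan := by
  have e : lineApprox σ y = ∑ n ∈ Icc 1 y,
      lineCoeff σ n • fun t : ℝ => cexp (((-Real.log n : ℝ) : ℂ) * t * I) := by
    funext t
    rw [lineApprox, lineSum, FA.BohrCourant.dpoly, Finset.sum_apply]
    refine sum_congr rfl fun n hn => ?_
    rw [Pi.smul_apply, smul_eq_mul, id_eq, dmono,
      Complex.cpow_def_of_ne_zero (Nat.cast_ne_zero.2 (Nat.one_le_iff_ne_zero.1 (mem_Icc.1 hn).1)),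
      ← Complex.natCast_log]
    push_cast
    ring_nf
  exact e ▸ sum_mem fun n _ => expSpan.smul_mem _ (Submodule.subset_span ⟨-Real.log n, rfl⟩)

theorem norm_lineApprox_le (σ : ℝ) (y : ℕ) (t : ℝ) :
    ‖lineApprox σ y t‖ ≤ ∑ n ∈ Icc 1 y, ‖lineCoeff σ n‖ := by
  rw [lineApprox, lineSum, FA.BohrCourant.dpoly]
  refine (norm_sum_le _ _).trans (le_of_eq (sum_congr rfl fun n hn => ?_))
  rw [norm_mul, id_eq, FA.BohrCourant.norm_dmono (mem_Icc.1 hn).1, mul_one]

theorem norm_zline_sub_le {σ : ℝ} (hσ : 1 < σ) (y : ℕ) (t : ℝ) :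
    ‖zline σ t - lineApprox σ y t‖ ≤ ∑' n : ℕ, ((n + (y + 1) : ℕ) : ℝ) ^ (-σ) := by
  have hre : 1 < ((σ : ℂ) + t * I).re := by simpa
  have hs : Summable fun n : ℕ => 1 / (n : ℂ) ^ ((σ : ℂ) + t * I) :=
    Complex.summable_one_div_nat_cpow.2 hre
  rw [zline, zeta_eq_tsum_one_div_nat_cpow hre, ← hs.sum_add_tsum_nat_add (y + 1)]
  have e : ∑ n ∈ range (y + 1), 1 / (n : ℂ) ^ ((σ : ℂ) + t * I) = lineApprox σ y t := by
    rw [lineApprox, lineSum, FA.BohrCourant.dpoly, Nat.range_succ_eq_Icc_zero,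
      ← add_sum_Ioc_eq_sum_Icc (Nat.zero_le y), Nat.cast_zero,
      Complex.zero_cpow (Complex.ne_zero_of_one_lt_re hre), div_zero, zero_add]
    refine sum_congr (by ext n; simp [Nat.one_le_iff_ne_zero, Nat.pos_iff_ne_zero]) fun n hn => ?_
    rw [id_eq, FA.BohrCourant.lineTerm_eq (mem_Icc.1 hn).1]
  rw [e, add_sub_cancel_left]
  have hsum : Summable fun n : ℕ => ((n + (y + 1) : ℕ) : ℝ) ^ (-σ) :=
    (summable_nat_add_iff (f := fun n : ℕ => (n : ℝ) ^ (-σ)) (y + 1)).2
      (Real.summable_nat_rpow.2 (by linarith))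
  refine tsum_of_norm_bounded hsum.hasSum fun n => le_of_eq ?_
  rw [norm_div, norm_one, Complex.norm_natCast_cpow_of_pos (by omega), Real.rpow_neg
    (Nat.cast_nonneg _), one_div]
  simp

/-- **The approximation in mean square.** -/
theorem exists_meanSq_approx {σ : ℝ} (hσ : 1 / 2 < σ) {ε : ℝ} (hε : 0 < ε) :
    ∃ y, ∀ᶠ T : ℝ in atTop,
      (∫ t in (2 : ℝ)..T, ‖zline σ t - lineApprox σ y t‖ ^ 2) / T ≤ ε := by
  rcases le_or_gt σ 4 with h4 | h4
  · obtain ⟨y, hy⟩ := ((FA.BohrCourant.tendsto_tailSum σ).eventually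
      (eventually_le_nhds (show (0 : ℝ) < ε / 4 by positivity))).exists
    exact ⟨y, (FA.BohrCourant.eventually_meanSquare_sub_le hσ h4
      (fun n hn => (mem_Icc.1 hn).1) subset_rfl (half_pos hε)).mono fun T hT =>
        hT.trans (by linarith)⟩
  · have h0 : Tendsto (fun y : ℕ => ∑' n : ℕ, ((n + (y + 1) : ℕ) : ℝ) ^ (-σ)) atTop (𝓝 0) :=
      (tendsto_sum_nat_add fun n : ℕ => (n : ℝ) ^ (-σ)).comp (tendsto_add_atTop_nat 1)
    have h2 := h0.pow 2
    rw [zero_pow two_ne_zero] at h2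
    obtain ⟨y, hy⟩ := (h2.eventually (eventually_le_nhds hε)).exists
    refine ⟨y, (eventually_ge_atTop (2 : ℝ)).mono fun T hT => ?_⟩
    rw [div_le_iff₀ (by linarith)]
    refine (intervalIntegral.integral_mono_on hT
      (((FA.BohrCourant.continuousOn_zeta_line σ hT).sub
        (continuous_lineApprox σ y).continuousOn).norm.pow 2).intervalIntegrable
      intervalIntegrable_const fun t _ => (pow_le_pow_left₀ (norm_nonneg _)
        (norm_zline_sub_le (by linarith) y t) 2).trans hy).trans ?_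
    rw [intervalIntegral.integral_const, smul_eq_mul]
    nlinarith

/-- The mean square of `ζ` is bounded. -/
theorem exists_meanSq_bound {σ : ℝ} (hσ : 1 / 2 < σ) :
    ∃ M : ℝ, 0 < M ∧ ∀ᶠ T : ℝ in atTop, (∫ t in (2 : ℝ)..T, ‖zline σ t‖ ^ 2) / T ≤ M := by
  obtain ⟨y, hy⟩ := exists_meanSq_approx hσ one_pos
  obtain ⟨R, hR⟩ : ∃ R, R = ∑ n ∈ Icc 1 y, ‖lineCoeff σ n‖ := ⟨_, rfl⟩
  refine ⟨2 + 2 * R ^ 2 + 1, by positivity, ?_⟩
  filter_upwards [hy, eventually_ge_atTop (2 : ℝ)] with T h hT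
  rw [div_le_iff₀ (by linarith)] at h ⊢
  have hd : IntervalIntegrable (fun t => ‖zline σ t - lineApprox σ y t‖ ^ 2) volume 2 T :=
    (((FA.BohrCourant.continuousOn_zeta_line σ hT).sub
      (continuous_lineApprox σ y).continuousOn).norm.pow 2).intervalIntegrable
  refine (intervalIntegral.integral_mono_on hT (intervalIntegrable_sq_zline σ hT)
    ((hd.const_mul 2).add intervalIntegrable_const) (g := fun t =>
      2 * ‖zline σ t - lineApprox σ y t‖ ^ 2 + 2 * R ^ 2) fun t _ => ?_).trans ?_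
  · have h1 := norm_le_norm_add_norm_sub' (zline σ t) (lineApprox σ y t)
    have h2 := pow_le_pow_left₀ (norm_nonneg _) (hR ▸ norm_lineApprox_le σ y t) 2
    nlinarith [sq_nonneg (‖lineApprox σ y t‖ - ‖zline σ t - lineApprox σ y t‖),
      norm_nonneg (zline σ t)]
  rw [intervalIntegral.integral_add (hd.const_mul 2) intervalIntegrable_const,
    intervalIntegral.integral_const_mul, intervalIntegral.integral_const, smul_eq_mul]
  nlinarith

theorem intervalIntegrable_of_bounded {f : ℝ → ℝ} (hf : Measurable f) {B : ℝ}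
    (hB : ∀ t, |f t| ≤ B) (a b : ℝ) : IntervalIntegrable f volume a b :=
  intervalIntegrable_const.mono_fun' (g := fun _ => B) hf.aestronglyMeasurable
    (Eventually.of_forall hB)

/-- A bound in mean from a bound by a square. -/
theorem eventually_mean_le {f S : ℝ → ℝ} (hf : Measurable f) {B a b c : ℝ}
    (hB : ∀ t, |f t| ≤ B) (ha : 0 ≤ a) (hb : 0 ≤ b)
    (hS : ∀ T, 2 ≤ T → IntervalIntegrable S volume 2 T)
    (hfS : ∀ t, 2 ≤ t → f t ≤ a + b * S t)
    (hc : ∀ᶠ T : ℝ in atTop, (∫ t in (2 : ℝ)..T, S t) / T ≤ c) {δ : ℝ} (hδ : 0 < δ) :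
    ∀ᶠ T : ℝ in atTop, (∫ t in (0 : ℝ)..T, f t) / T ≤ a + b * c + δ := by
  filter_upwards [hc, eventually_ge_atTop (2 : ℝ), eventually_ge_atTop (2 * B / δ)]
    with T h hT hTB
  rw [div_le_iff₀ hδ] at hTB
  rw [div_le_iff₀ (by linarith)] at h ⊢
  rw [← intervalIntegral.integral_add_adjacent_intervals
    (intervalIntegrable_of_bounded hf hB 0 2) (intervalIntegrable_of_bounded hf hB 2 T)]
  have h1 : ∫ t in (0 : ℝ)..2, f t ≤ 2 * B := by
    refine (intervalIntegral.integral_mono_on zero_le_two (intervalIntegrable_of_bounded hf hB _ _)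
      intervalIntegrable_const fun t _ => (abs_le.1 (hB t)).2).trans (le_of_eq ?_)
    simp
  have h2 : ∫ t in (2 : ℝ)..T, f t ≤ a * (T - 2) + b * (c * T) := by
    refine (intervalIntegral.integral_mono_on hT (intervalIntegrable_of_bounded hf hB _ _)
      (intervalIntegrable_const.add ((hS T hT).const_mul b))
      fun t ht => hfS t ht.1).trans ?_
    rw [intervalIntegral.integral_add intervalIntegrable_const ((hS T hT).const_mul b),
      intervalIntegral.integral_const, intervalIntegral.integral_const_mul, smul_eq_mul,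
      mul_comm (T - 2)]
    exact add_le_add le_rfl (mul_le_mul_of_nonneg_left h hb)
  nlinarith

/-- `(1/T) ∫_0^T φ (ζ (σ + it))`. -/
def lineMean (σ : ℝ) (φ : ℂ → ℝ) (T : ℝ) : ℝ := (∫ t in (0 : ℝ)..T, φ (zline σ t)) / T

theorem intervalIntegrable_comp_zline (σ : ℝ) {φ : ℂ → ℝ} (hφ : Continuous φ) {C : ℝ}
    (hC : ∀ z, |φ z| ≤ C) (a b : ℝ) : IntervalIntegrable (fun t => φ (zline σ t)) volume a b :=
  intervalIntegrable_of_bounded (hφ.measurable.comp (measurable_zline σ)) (fun _ => hC _) a b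

theorem intervalIntegrable_ofReal {f : ℝ → ℝ} {a b : ℝ} (h : IntervalIntegrable f volume a b) :
    IntervalIntegrable (fun t => (f t : ℂ)) volume a b :=
  ⟨h.1.ofReal, h.2.ofReal⟩

theorem hasMean_compactSupport {σ : ℝ} (hσ : 1 / 2 < σ) (φ : C_c(ℂ, ℝ)) :
    HasMean fun t => (φ (zline σ t) : ℂ) := by
  have hφ : Continuous φ := (map_continuous φ)
  obtain ⟨C, hC⟩ := φ.hasCompactSupport.exists_bound_of_continuous hφ
  simp only [Real.norm_eq_abs] at hC
  have hC0 : 0 ≤ C := (abs_nonneg _).trans (hC 0)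
  have hu := φ.hasCompactSupport.uniformContinuous_of_continuous hφ
  refine hasMean_of_approx (fun T => ?_) fun ε hε => ?_
  · exact intervalIntegrable_ofReal (intervalIntegrable_comp_zline σ hφ hC 0 T)
  obtain ⟨d, hd, hd'⟩ := Metric.uniformContinuous_iff.1 hu (ε / 3) (by linarith)
  obtain ⟨y, hy⟩ := exists_meanSq_approx hσ
    (show 0 < ε / 3 / (2 * C / d ^ 2 + 1) by positivity)
  refine ⟨fun t => (φ (lineApprox σ y t) : ℂ),
    hasMean_comp_expSum (φ := fun z => (φ z : ℂ)) (Complex.continuous_ofReal.comp hφ)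
      (lineApprox_mem_expSpan σ y) (norm_lineApprox_le σ y),
    fun T => (Complex.continuous_ofReal.comp
      (hφ.comp (continuous_lineApprox σ y))).intervalIntegrable _ _, ?_⟩
  simp only [← Complex.ofReal_sub, Complex.norm_real, Real.norm_eq_abs]
  refine (eventually_mean_le (B := 2 * C) (a := ε / 3) (b := 2 * C / d ^ 2)
    (S := fun t => ‖zline σ t - lineApprox σ y t‖ ^ 2)
    (((hφ.measurable.comp (measurable_zline σ)).sub
      (hφ.comp (continuous_lineApprox σ y)).measurable).norm) (fun t => ?_) (by linarith)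
    (by positivity) (fun T hT => (((FA.BohrCourant.continuousOn_zeta_line σ hT).sub
      (continuous_lineApprox σ y).continuousOn).norm.pow 2).intervalIntegrable)
    (fun t _ => ?_) hy (show 0 < ε / 3 by linarith)).mono fun T hT => hT.trans ?_
  · simp only [Pi.sub_apply, Function.comp_apply, Real.norm_eq_abs, abs_abs]
    linarith [abs_sub (φ (zline σ t)) (φ (lineApprox σ y t)), hC (zline σ t),
      hC (lineApprox σ y t)]
  · simp only [Pi.sub_apply, Function.comp_apply, Real.norm_eq_abs]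
    rcases lt_or_ge ‖zline σ t - lineApprox σ y t‖ d with h | h
    · have h1 := hd' (a := zline σ t) (b := lineApprox σ y t) (by rwa [dist_eq_norm])
      rw [dist_eq_norm, Real.norm_eq_abs] at h1
      have : 0 ≤ 2 * C / d ^ 2 * ‖zline σ t - lineApprox σ y t‖ ^ 2 := by positivity
      linarith
    · have h2 : 2 * C ≤ 2 * C / d ^ 2 * ‖zline σ t - lineApprox σ y t‖ ^ 2 := by
        rw [div_mul_eq_mul_div, le_div_iff₀ (by positivity)]
        exact mul_le_mul_of_nonneg_left (pow_le_pow_left₀ hd.le h 2) (by positivity)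
      linarith [abs_sub (φ (zline σ t)) (φ (lineApprox σ y t)), hC (zline σ t),
        hC (lineApprox σ y t)]
  · have h1 : 2 * C / d ^ 2 * (ε / 3 / (2 * C / d ^ 2 + 1)) ≤ ε / 3 := by
      rw [mul_div_assoc', div_le_iff₀ (by positivity)]
      nlinarith [show 0 ≤ 2 * C / d ^ 2 by positivity]
    linarith

/-- `1` on the disc of radius `R`, `0` outside that of radius `R + 1`. -/
def cutoff (R : ℝ) : C_c(ℂ, ℝ) :=
  ⟨⟨fun z => max 0 (min 1 (R + 1 - ‖z‖)), by fun_prop⟩,
    HasCompactSupport.intro (isCompact_closedBall (0 : ℂ) (R + 1)) fun z hz => by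
      rw [Metric.mem_closedBall, dist_zero_right, not_le] at hz
      exact max_eq_left ((min_le_right _ _).trans (by linarith))⟩

theorem cutoff_nonneg (R : ℝ) (z : ℂ) : 0 ≤ cutoff R z := le_max_left _ _

theorem cutoff_le_one (R : ℝ) (z : ℂ) : cutoff R z ≤ 1 := max_le zero_le_one (min_le_left _ _)

theorem cutoff_eq_one {R : ℝ} {z : ℂ} (h : ‖z‖ ≤ R) : cutoff R z = 1 := by
  show max 0 (min 1 (R + 1 - ‖z‖)) = 1
  rw [min_eq_left (by linarith), max_eq_right zero_le_one]

theorem one_sub_cutoff_le {R : ℝ} (hR : 0 < R) (z : ℂ) :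
    1 - cutoff R z ≤ ‖z‖ ^ 2 / R ^ 2 := by
  rcases le_or_gt ‖z‖ R with h | h
  · rw [cutoff_eq_one h, sub_self]
    positivity
  · refine (sub_le_self _ (cutoff_nonneg R z)).trans ?_
    rw [one_le_div (by positivity)]
    exact pow_le_pow_left₀ hR.le h.le 2

/-- A bounded continuous `φ` times the cutoff. -/
def cutTest (R : ℝ) {φ : ℂ → ℝ} (hφ : Continuous φ) : C_c(ℂ, ℝ) :=
  ⟨⟨fun z => φ z * cutoff R z, hφ.mul (map_continuous (cutoff R))⟩,
    (cutoff R).hasCompactSupport.mul_left⟩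

theorem eventually_cutTest_le {σ : ℝ} {φ : ℂ → ℝ} (hφ : Continuous φ) {C : ℝ}
    (hC : ∀ z, |φ z| ≤ C) {M : ℝ}
    (hM : ∀ᶠ T : ℝ in atTop, (∫ t in (2 : ℝ)..T, ‖zline σ t‖ ^ 2) / T ≤ M) {R : ℝ} (hR : 0 < R)
    {δ : ℝ} (hδ : 0 < δ) :
    ∀ᶠ T : ℝ in atTop,
      (∫ t in (0 : ℝ)..T, |φ (zline σ t) - cutTest R hφ (zline σ t)|) / T ≤ C / R ^ 2 * M + δ := by
  have hC0 : 0 ≤ C := (abs_nonneg _).trans (hC 0)
  have e : ∀ z, |φ z - cutTest R hφ z| = |φ z| * (1 - cutoff R z) := fun z => by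
    show |φ z - φ z * cutoff R z| = _
    rw [← mul_one_sub, abs_mul, abs_of_nonneg (sub_nonneg.2 (cutoff_le_one R z))]
  simp only [e]
  have h := eventually_mean_le (B := C) (a := 0) (b := C / R ^ 2)
    (S := fun t => ‖zline σ t‖ ^ 2) (f := fun t => |φ (zline σ t)| * (1 - cutoff R (zline σ t)))
    (((hφ.abs.mul (continuous_const.sub (map_continuous (cutoff R)))).measurable).comp
      (measurable_zline σ)) (fun t => ?_) le_rfl (by positivity)
    (fun T hT => intervalIntegrable_sq_zline σ hT) (fun t _ => ?_) hM hδ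
  · simpa using h
  · rw [abs_mul, abs_abs, abs_of_nonneg (sub_nonneg.2 (cutoff_le_one R _))]
    exact (mul_le_of_le_one_right (abs_nonneg _) (sub_le_self _ (cutoff_nonneg R _))).trans (hC _)
  · rw [zero_add, div_mul_eq_mul_div, mul_div_assoc]
    exact mul_le_mul (hC _) (one_sub_cutoff_le hR _) (sub_nonneg.2 (cutoff_le_one R _)) hC0

/-- **The mean exists for every bounded continuous function.** -/
theorem hasMean_bounded {σ : ℝ} (hσ : 1 / 2 < σ) {φ : ℂ → ℝ} (hφ : Continuous φ) {C : ℝ}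
    (hC : ∀ z, |φ z| ≤ C) : HasMean fun t => (φ (zline σ t) : ℂ) := by
  obtain ⟨M, hM0, hM⟩ := exists_meanSq_bound hσ
  have hC0 : 0 ≤ C := (abs_nonneg _).trans (hC 0)
  refine hasMean_of_approx
    (fun T => intervalIntegrable_ofReal (intervalIntegrable_comp_zline σ hφ hC 0 T))
    fun ε hε => ?_
  obtain ⟨R, hR, hR1⟩ : ∃ R : ℝ, 0 < R ∧ C / R ^ 2 * M ≤ ε / 2 := by
    refine ⟨2 * C * M / ε + 1, by positivity, ?_⟩
    obtain ⟨X, hX⟩ : ∃ X, X = 2 * C * M / ε := ⟨_, rfl⟩
    have hX0 : 0 ≤ X := hX ▸ by positivity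
    have hXe : X * ε = 2 * C * M := hX ▸ div_mul_cancel₀ _ hε.ne'
    rw [← hX, div_mul_eq_mul_div, div_le_iff₀ (by positivity)]
    nlinarith [mul_nonneg hε.le (sq_nonneg X), mul_nonneg hε.le hX0]
  refine ⟨fun t => (cutTest R hφ (zline σ t) : ℂ), hasMean_compactSupport hσ _, fun T => ?_, ?_⟩
  · refine intervalIntegrable_ofReal
      (intervalIntegrable_comp_zline σ (map_continuous (cutTest R hφ)) (C := C) (fun z => ?_) 0 T)
    show |φ z * cutoff R z| ≤ C
    rw [abs_mul, abs_of_nonneg (cutoff_nonneg R z)]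
    exact (mul_le_of_le_one_right (abs_nonneg _) (cutoff_le_one R z)).trans (hC z)
  · simp only [← Complex.ofReal_sub, Complex.norm_real, Real.norm_eq_abs]
    exact (eventually_cutTest_le hφ hC hM hR (half_pos hε)).mono fun T hT => hT.trans (by linarith)

/-- The limit of the means. -/
def lineLimit (σ : ℝ) (φ : ℂ → ℝ) : ℝ :=
  (limUnder atTop (meanTo fun t => (φ (zline σ t) : ℂ))).re

theorem tendsto_lineMean {σ : ℝ} {φ : ℂ → ℝ} (h : HasMean fun t => (φ (zline σ t) : ℂ)) :
    Tendsto (lineMean σ φ) atTop (𝓝 (lineLimit σ φ)) := by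
  obtain ⟨L, hL⟩ := h
  rw [lineLimit, hL.limUnder_eq]
  refine ((Complex.continuous_re.tendsto L).comp hL).congr fun T => ?_
  rw [Function.comp_apply, meanTo, lineMean, intervalIntegral.integral_ofReal,
    ← Complex.ofReal_div, Complex.ofReal_re]

theorem tendsto_lineMean_compact {σ : ℝ} (hσ : 1 / 2 < σ) (φ : C_c(ℂ, ℝ)) :
    Tendsto (lineMean σ φ) atTop (𝓝 (lineLimit σ φ)) :=
  tendsto_lineMean (hasMean_compactSupport hσ φ)

end FA.BohrJessen
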